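import Fermat.Agent.S17.Top.Inputs
import Fermat.Agent.S17.FC.CubeIng
import Fermat.Agent.S17.Cube.Main

/-!
# S17: (cube) on the frame `FC`, thresholds `c = c1 = cFC N + 1`, and the final theorem
-/

set_option autoImplicit false
set_option synthInstance.maxHeartbeats 400000

open AlgebraicCurve ModularCurve

namespace Fermat.Agent.S17Lib

open Fermat.Agent.S18Lib Fermat.Agent.ESLib Fermat.Agent.FFLib

/-- `PNa.Extra` for the frame, any `c ≥ cFC N` -/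
theorem TCH_extra (N : ℕ) [NeZero N] (c : ℕ) (hc : cFC N ≤ c) :
    PNa.Extra (dvDeg N) (dvCl N) (genusR Qb (FB N)) c (TopH N) where
  pos := fun b => by
    obtain ⟨C, hC⟩ := FC_pos N b
    exact ⟨C, fun E hE => hC E (by omega)⟩
  north := fun b n T h => FC_north N b n T (by omega)
  sieg := fun m n B h1 h2 => FC_sieg_cFC N m n B (by omega) (by omega)

/-- `FDa.Inputs` for the frame from (cube), any `c ≥ cFC N` -/
theorem TCH_inputs (N : ℕ) [NeZero N] (c c1 : ℕ) (hc : cFC N ≤ c) (hcube : TopCube N c c1) :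
    FDa.Inputs (dvDeg N) (dvCl N) (dvO N) (genusR Qb (FB N)) c c1 (TopH N) where
  deg_o := dvDeg_dvO N
  cl_o := dvCl_dvO N
  shift := fun b n _ => by
    obtain ⟨C, hC⟩ := FCs_shift N b
    exact ⟨C, fun E _ => hC E⟩
  inv := fun n B => by
    obtain ⟨C, hC⟩ := FI_inv_final N n B
    refine ⟨C, fun E E' h1 h2 h3 => ?_⟩
    obtain ⟨δ, hδ⟩ := hC E E' h1 h2 h3
    exact ⟨δ, fun b hb hB => hδ b (by omega) hB⟩
  cube := hcube

/-- (cube) at the levels `b0`, `b0 + m`, `b0 + m + m` -/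
theorem TCH_cube_levels (N : ℕ) [NeZero N] (b0 m n1 f a : ℕ) (hb : n1 + f + cFC N + 1 ≤ b0)
    (hm : a + cFC N + 1 ≤ m) :
    ∃ C : ℝ, ∀ E1 F A : Dv N, dvDeg N E1 = n1 → dvDeg N F = f → dvDeg N A = a →
      |FDa.Dcube (FA4_H N) (b0 + m) m E1 A - FDa.Dcube (FA4_H N) (b0 + m) m (E1 + F) A| ≤ C := by
  haveI : Nonempty (Fin (FA4_k2 N b0 m n1 f a)) :=
    ⟨⟨0, FA4_k2_pos N b0 m n1 f a (by omega) hm⟩⟩
  refine FA4_cube_thr N b0 m n1 f a (by omega) hm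
    (fun M => ∀ f' ∈ HT_Z N m a (Fin (FA4_ka N m a)),
      MvPolynomial.aeval (fun x : Fin (FA4_ka N m a) × Fin (dV N m) => M x.1 x.2) f' = 0)
    (fun M => ∀ f' ∈ HT_Z N (b0 + m) (n1 + a + f) (Fin (FA4_k1 N b0 m n1 f a)),
      MvPolynomial.aeval
        (fun x : Fin (FA4_k1 N b0 m n1 f a) × Fin (dV N (b0 + m)) => M x.1 x.2) f' = 0)
    (fun M => ∀ f' ∈ HT_Z N (b0 + m) (n1 + a) (Fin (FA4_k1 N b0 m n1 f a) ⊕ Fin f),
      MvPolynomial.aeval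
        (fun x : (Fin (FA4_k1 N b0 m n1 f a) ⊕ Fin f) × Fin (dV N (b0 + m)) => M x.1 x.2) f' = 0)
    (fun A M hA hM _ => FA4_mem_Z N m a (by omega) A hA M hM)
    (fun E M hE hM _ => FA4_mem_Z N (b0 + m) (n1 + a + f) (by omega) E hE M hM)
    (fun E M hE hM _ => FA4_mem_Z N (b0 + m) (n1 + a) (by omega) E hE M hM)
    ?_
  exact cube_abs (tau N m b0) (tau N m (b0 + m)) (FA4_eps N b0 m n1 f a (by omega) hm)
    (FA4_hcomm N m b0) (FA4_hdom N m b0)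
    (HT_Z N m a (Fin (FA4_ka N m a)))
    (HT_Z N (b0 + m) (n1 + a + f) (Fin (FA4_k1 N b0 m n1 f a)))
    (HT_Z N (b0 + m) (n1 + a) (Fin (FA4_k1 N b0 m n1 f a) ⊕ Fin f))
    (HT_gl N m a) (HT_gl N (b0 + m) (n1 + a + f)) (HT_gl N (b0 + m) (n1 + a))
    (FA4_hT N b0 m n1 f a hb hm) (FA4_hT' N b0 m n1 f a hb hm)

/-- (cube) for the frame -/
theorem TCH_cube (N : ℕ) [NeZero N] : TopCube N (cFC N + 1) (cFC N + 1) := by
  intro b m n1 f a hb hm
  obtain ⟨b0, rfl⟩ : ∃ b0, b = b0 + m := ⟨b - m, by omega⟩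
  exact TCH_cube_levels N b0 m n1 f a (by omega) (by omega)

/-- **S17** -/
theorem TCH_fg (N : ℕ) [NeZero N] (hN : N.Prime) :
    AddGroup.FG ↥(FixedPoints.addSubgroup ((AlgebraicClosure ℚ) ≃ₐ[ℚ] (AlgebraicClosure ℚ))
      (JZero N)) :=
  TOP_fg_of_frame N hN (cFC N + 1) (cFC N + 1)
    (TCH_inputs N (cFC N + 1) (cFC N + 1) (by omega) (TCH_cube N))
    (TCH_extra N (cFC N + 1) (by omega))

end Fermat.Agent.S17Lib
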