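import Fermat.Agent.S17.Top.PNa
import Fermat.Agent.S17.FC.Shift
import Fermat.Agent.S17.FC.InvFinal
import Fermat.Agent.S17.Pos.FC
import Fermat.Agent.S17.Sieg.Thr
import Fermat.Agent.S17.WMW.Main
import Fermat.Agent.S17.Div.Final

/-!
# S17: top assembly. Everything except the cube is discharged: `TF_fg : TF_Cube N → AddGroup.FG (MW N)`.
-/

set_option autoImplicit false
set_option synthInstance.maxHeartbeats 400000

open AlgebraicCurve ModularCurve

namespace Fermat.Agent.S17Lib

open Fermat.Agent.S18Lib Fermat.Agent.S24Lib Fermat.Agent.ESLib Fermat.Agent.FFLib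
  Fermat.Agent.S28Lib

noncomputable section

variable (N : ℕ) [NeZero N]

/-- the height function of the frame -/
def TF_H : ℕ → Dv N → ℝ := fun b E => FC_HH N b (E : Divisor Qb (FB N))

/-- the statement of the cube on the curve -/
def TF_Cube : Prop :=
  ∀ b m n1 f a : ℕ, n1 + f + m + cFC N ≤ b → a + (cFC N + 1) ≤ m → ∃ C : ℝ, ∀ E1 F A : Dv N,
    dvDeg N E1 = n1 → dvDeg N F = f → dvDeg N A = a →
      |FDa.Dcube (TF_H N) b m E1 A - FDa.Dcube (TF_H N) b m (E1 + F) A| ≤ C

theorem TF_inputs (hcube : TF_Cube N) :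
    FDa.Inputs (dvDeg N) (dvCl N) (dvO N) (genusR Qb (FB N)) (cFC N) (cFC N + 1) (TF_H N) where
  deg_o := dvDeg_dvO N
  cl_o := dvCl_dvO N
  shift := fun b n _ => by
    obtain ⟨C, hC⟩ := FCs_shift N b
    exact ⟨C, fun E _ => hC E⟩
  inv := fun n B => FI_inv_final N n B
  cube := hcube

theorem TF_extra : PNa.Extra (dvDeg N) (dvCl N) (genusR Qb (FB N)) (cFC N) (TF_H N) where
  pos := fun b => FC_pos N b
  north := fun b n T h => FC_north N b n T h
  sieg := FC_sieg_cFC N

theorem TF_fg (hN : N.Prime) (hcube : TF_Cube N) : AddGroup.FG (MW N) :=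
  PNa.fg_of_frame (TF_inputs N hcube) (TF_extra N) (dvR N) (dvDeg_dvR N) (dvCl_dvR N)
    (weak_mw N hN fun x => by
      obtain ⟨y, hy⟩ := Fermat.Agent.S17Div.jzero_divisible N 3 (by norm_num) x
      exact ⟨y, by rw [← hy]; exact (natCast_zsmul y 3).symm⟩)

end

end Fermat.Agent.S17Lib
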