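import Fermat.Agent.S17.Top.Final
import Fermat.Agent.S17.FC.Shift
import Fermat.Agent.S17.FC.InvFinal
import Fermat.Agent.S17.Pos.FC
import Fermat.Agent.S17.Sieg.Thr

/-!
# S17: final assembly, everything except the cube

`TOC_fg_of_cube`: the cube on the frame `FC` (for ANY thresholds `c ≥ cFC N`, `c1`) implies the
Mordell-Weil theorem for `J₀(N)`.
-/

set_option autoImplicit false

open AlgebraicCurve ModularCurve

namespace Fermat.Agent.S17Lib

open Fermat.Agent.S18Lib Fermat.Agent.ESLib Fermat.Agent.FFLib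

theorem TOC_extra (N : ℕ) [NeZero N] (c : ℕ) (hc : cFC N ≤ c) :
    PNa.Extra (dvDeg N) (dvCl N) (genusR Qb (FB N)) c (TopH N) where
  pos := fun b => by
    obtain ⟨C, hC⟩ := FC_pos N b
    exact ⟨C, fun E hE => hC E (by omega)⟩
  north := fun b n T h => FC_north N b n T (by omega)
  sieg := fun m n B h1 h2 => FC_sieg_cFC N m n B (by omega) (by omega)

theorem TOC_inputs (N : ℕ) [NeZero N] (c c1 : ℕ) (hc : cFC N ≤ c)
    (cube : ∀ b m n1 f a : ℕ, n1 + f + m + c ≤ b → a + c1 ≤ m → ∃ C : ℝ, ∀ E1 F A : Dv N,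
      dvDeg N E1 = n1 → dvDeg N F = f → dvDeg N A = a →
      |FDa.Dcube (TopH N) b m E1 A - FDa.Dcube (TopH N) b m (E1 + F) A| ≤ C) :
    FDa.Inputs (dvDeg N) (dvCl N) (dvO N) (genusR Qb (FB N)) c c1 (TopH N) where
  deg_o := dvDeg_dvO N
  cl_o := dvCl_dvO N
  shift := fun b n _ => by
    obtain ⟨C, hC⟩ := FCs_shift N b
    exact ⟨C, fun E _ => hC E⟩
  inv := fun n B => by
    obtain ⟨C, hC⟩ := FI_inv_final N n B
    refine ⟨C, fun E E' h1 h2 h3 => ?_⟩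
    obtain ⟨δ, hδ⟩ := hC E E' h1 h2 h3
    exact ⟨δ, fun b hb hB => hδ b (by omega) hB⟩
  cube := cube

/-- **Mordell-Weil for `J₀(N)` from the cube on the frame** -/
theorem TOC_fg_of_cube (N : ℕ) [NeZero N] (hN : N.Prime) (c c1 : ℕ) (hc : cFC N ≤ c)
    (cube : ∀ b m n1 f a : ℕ, n1 + f + m + c ≤ b → a + c1 ≤ m → ∃ C : ℝ, ∀ E1 F A : Dv N,
      dvDeg N E1 = n1 → dvDeg N F = f → dvDeg N A = a →
      |FDa.Dcube (TopH N) b m E1 A - FDa.Dcube (TopH N) b m (E1 + F) A| ≤ C) :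
    AddGroup.FG ↥(FixedPoints.addSubgroup ((AlgebraicClosure ℚ) ≃ₐ[ℚ] (AlgebraicClosure ℚ))
      (JZero N)) :=
  TOP_fg_of_frame N hN c c1 (TOC_inputs N c c1 hc cube) (TOC_extra N c hc)

end Fermat.Agent.S17Lib
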