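import Fermat.Agent.S17.Top.PNa
import Fermat.Agent.S17.FC.Gal
import Fermat.Agent.S17.WMW.Main
import Fermat.Agent.S17.Div.Final

/-!
# S17: final assembly from the frame `FC` (hypotheses: `FDa.Inputs` and `PNa.Extra`)
-/

set_option autoImplicit false

open AlgebraicCurve ModularCurve

namespace Fermat.Agent.S17Lib

open Fermat.Agent.S18Lib Fermat.Agent.ESLib Fermat.Agent.FFLib

/-- the height function of the frame on `Dv N` -/
noncomputable def TopH (N : ℕ) [NeZero N] : ℕ → Dv N → ℝ := fun b E => FC_HH N b E.1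

theorem TOP_fg_of_frame (N : ℕ) [NeZero N] (hN : N.Prime) (c c1 : ℕ)
    (h : FDa.Inputs (dvDeg N) (dvCl N) (dvO N) (genusR Qb (FB N)) c c1 (TopH N))
    (e : PNa.Extra (dvDeg N) (dvCl N) (genusR Qb (FB N)) c (TopH N)) :
    AddGroup.FG ↥(FixedPoints.addSubgroup ((AlgebraicClosure ℚ) ≃ₐ[ℚ] (AlgebraicClosure ℚ))
      (JZero N)) := by
  have DIV : ∀ x : JZero N, ∃ y : JZero N, 3 • y = x := fun x => by
    obtain ⟨y, hy⟩ := Fermat.Agent.S17Div.jzero_divisible N 3 (by norm_num) x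
    exact ⟨y, by rw [← hy]; norm_cast⟩
  exact PNa.fg_of_frame h e (dvR N) (dvDeg_dvR N) (dvCl_dvR N) (weak_mw N hN DIV)

end Fermat.Agent.S17Lib
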