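import Fermat.Agent.S17.Top.FinalA

/-!
# S17: top assembly with free thresholds, and the cube in the `b = b0 + m` form
-/

set_option autoImplicit false
set_option synthInstance.maxHeartbeats 400000

open AlgebraicCurve ModularCurve

namespace Fermat.Agent.S17Lib

open Fermat.Agent.S18Lib Fermat.Agent.S24Lib Fermat.Agent.ESLib Fermat.Agent.FFLib
  Fermat.Agent.S28Lib

noncomputable section

variable (N : ℕ) [NeZero N]

/-- the cube on the curve with thresholds `c`, `c1` -/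
def TF_CubeG (c c1 : ℕ) : Prop :=
  ∀ b m n1 f a : ℕ, n1 + f + m + c ≤ b → a + c1 ≤ m → ∃ C : ℝ, ∀ E1 F A : Dv N,
    dvDeg N E1 = n1 → dvDeg N F = f → dvDeg N A = a →
      |FDa.Dcube (TF_H N) b m E1 A - FDa.Dcube (TF_H N) b m (E1 + F) A| ≤ C

/-- the cube on the curve in the form `b = b0 + m` -/
def TF_CubeL (c c1 : ℕ) : Prop :=
  ∀ b0 m n1 f a : ℕ, n1 + f + c ≤ b0 → a + c1 ≤ m → ∃ C : ℝ, ∀ E1 F A : Dv N,
    dvDeg N E1 = n1 → dvDeg N F = f → dvDeg N A = a →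
      |FDa.Dcube (TF_H N) (b0 + m) m E1 A - FDa.Dcube (TF_H N) (b0 + m) m (E1 + F) A| ≤ C

theorem TF_cubeG_of_cubeL {c c1 : ℕ} (h : TF_CubeL N c c1) : TF_CubeG N c c1 := by
  intro b m n1 f a hb hm
  obtain ⟨b0, rfl⟩ : ∃ b0, b = b0 + m := ⟨b - m, by omega⟩
  exact h b0 m n1 f a (by omega) hm

theorem TF_inputsG {c c1 : ℕ} (hc : cFC N ≤ c) (hcube : TF_CubeG N c c1) :
    FDa.Inputs (dvDeg N) (dvCl N) (dvO N) (genusR Qb (FB N)) c c1 (TF_H N) where
  deg_o := dvDeg_dvO N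
  cl_o := dvCl_dvO N
  shift := fun b n _ => by
    obtain ⟨C, hC⟩ := FCs_shift N b
    exact ⟨C, fun E _ => hC E⟩
  inv := fun n B => by
    obtain ⟨C, hC⟩ := FI_inv_final N n B
    refine ⟨C, fun E E' h1 h2 h3 => ?_⟩
    obtain ⟨δ, hδ⟩ := hC E E' h1 h2 h3
    exact ⟨δ, fun b hb hB => hδ b (by omega) hB⟩
  cube := hcube

theorem TF_extraG {c : ℕ} (hc : cFC N ≤ c) :
    PNa.Extra (dvDeg N) (dvCl N) (genusR Qb (FB N)) c (TF_H N) where
  pos := fun b => by
    obtain ⟨C, hC⟩ := FC_pos N b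
    exact ⟨C, fun E hE => hC E (by omega)⟩
  north := fun b n T h => FC_north N b n T (by omega)
  sieg := fun m n B h1 h2 => FC_sieg_cFC N m n B (by omega) (by omega)

/-- **top assembly with free thresholds** -/
theorem TF_fgG (hN : N.Prime) {c c1 : ℕ} (hc : cFC N ≤ c) (hcube : TF_CubeG N c c1) :
    AddGroup.FG (MW N) :=
  PNa.fg_of_frame (TF_inputsG N hc hcube) (TF_extraG N hc) (dvR N) (dvDeg_dvR N) (dvCl_dvR N)
    (weak_mw N hN fun x => by
      obtain ⟨y, hy⟩ := Fermat.Agent.S17Div.jzero_divisible N 3 (by norm_num) x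
      exact ⟨y, by rw [← hy]; exact (natCast_zsmul y 3).symm⟩)

/-- the same from the `b = b0 + m` form of the cube -/
theorem TF_fgL (hN : N.Prime) {c c1 : ℕ} (hc : cFC N ≤ c) (hcube : TF_CubeL N c c1) :
    AddGroup.FG (MW N) :=
  TF_fgG N hN hc (TF_cubeG_of_cubeL N hcube)

end

end Fermat.Agent.S17Lib
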