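import Fermat.Agent.S17.Top.Final
import Fermat.Agent.S17.Pos.FC
import Fermat.Agent.S17.Sieg.Thr
import Fermat.Agent.S17.FC.InvFinal
import Fermat.Agent.S17.FC.Shift

/-!
# S17: the hypotheses of `TOP_fg_of_frame` for the frame `FC`, everything except (cube)
-/

set_option autoImplicit false

open AlgebraicCurve ModularCurve

namespace Fermat.Agent.S17Lib

open Fermat.Agent.S18Lib Fermat.Agent.ESLib Fermat.Agent.FFLib

/-- `PNa.Extra` for the frame, `c = cFC N` -/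
theorem TOP_extra (N : ℕ) [NeZero N] :
    PNa.Extra (dvDeg N) (dvCl N) (genusR Qb (FB N)) (cFC N) (TopH N) where
  pos := FC_pos N
  north := FC_north N
  sieg := FC_sieg_cFC N

/-- the (cube) statement for the frame -/
def TopCube (N : ℕ) [NeZero N] (c c1 : ℕ) : Prop :=
  ∀ b m n1 f a : ℕ, n1 + f + m + c ≤ b → a + c1 ≤ m → ∃ C : ℝ, ∀ E1 F A : Dv N,
    dvDeg N E1 = n1 → dvDeg N F = f → dvDeg N A = a →
      |FDa.Dcube (TopH N) b m E1 A - FDa.Dcube (TopH N) b m (E1 + F) A| ≤ C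

/-- `FDa.Inputs` for the frame from (cube) -/
theorem TOP_inputs (N : ℕ) [NeZero N] (c1 : ℕ) (hcube : TopCube N (cFC N) c1) :
    FDa.Inputs (dvDeg N) (dvCl N) (dvO N) (genusR Qb (FB N)) (cFC N) c1 (TopH N) where
  deg_o := dvDeg_dvO N
  cl_o := dvCl_dvO N
  shift := fun b n _ => by
    obtain ⟨C, hC⟩ := FCs_shift N b
    exact ⟨C, fun E _ => hC E⟩
  inv := FI_inv_final N
  cube := hcube

/-- S17 from (cube) alone -/
theorem TOP_fg_of_cube (N : ℕ) [NeZero N] (hN : N.Prime) (c1 : ℕ)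
    (hcube : TopCube N (cFC N) c1) :
    AddGroup.FG ↥(FixedPoints.addSubgroup ((AlgebraicClosure ℚ) ≃ₐ[ℚ] (AlgebraicClosure ℚ))
      (JZero N)) :=
  TOP_fg_of_frame N hN (cFC N) c1 (TOP_inputs N c1 hcube) (TOP_extra N)

end Fermat.Agent.S17Lib
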