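import Fermat.Agent.S17.FDa
import Fermat.Agent.S17.WMW.Descent3

/-!
# S17, block PN: positivity and Northcott for the theta height (curve-free), and the abstract
top-level statement: `FDa.Inputs` + `PNa.Extra` + weak Mordell-Weil (`m = 3`) imply `AddGroup.FG`.
-/

set_option autoImplicit false

namespace Fermat.Agent.S17Lib
namespace PNa

open FDa

variable {Dv A : Type*} [AddCommMonoid Dv] [AddCommGroup A]
variable (deg : Dv →+ ℕ) (cl : Dv →+ A) (g c : ℕ) (H : ℕ → Dv → ℝ)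

/-- the three extra inputs: (pos), (north), (sieg) -/
structure Extra : Prop where
  pos : ∀ b : ℕ, ∃ C : ℝ, ∀ E, deg E + c ≤ b → H b E ≤ H (b + 1) E + C
  north : ∀ (b n : ℕ) (T : ℝ), n + c + 1 ≤ b → {E | deg E = n ∧ H b E ≤ T}.Finite
  sieg : ∀ m n B : ℕ, n + c ≤ m → m + c ≤ B → ∃ C : ℝ, ∀ R, deg R = n →
    ∃ E, deg E = m - n ∧ cl E = - cl R ∧
      ((m : ℝ) - n + 1 - g) * (H (B + 1) (R + E) - H B (R + E)) ≤ H m R + C

variable {deg cl g c H} {o : Dv} {c1 : ℕ}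

/-- key estimate: for every `x` there is `E` of degree `κ` in the class `x` with
`k ξ(E) ≤ θ(-x) + C` and `H_{2κ}(E) ≤ θ(x) + θ(-x) + C`. -/
theorem key (h : Inputs deg cl o g c c1 H) (e : Extra deg cl g c H) (κ : ℕ)
    (hκ : c + c1 + g + 1 ≤ κ) (R : A → Dv) (hRd : ∀ x, deg (R x) = g) (hRc : ∀ x, cl (R x) = x) :
    ∃ C : ℝ, ∀ x : A, ∃ E, deg E = κ ∧ cl E = x ∧
      ((κ : ℝ) + 1 - g) * (H (κ + κ + 1) E - H (κ + κ) E) ≤ hh deg H g κ (R (-x)) + C ∧
      H (κ + κ) E ≤ hh deg H g κ (R x) + hh deg H g κ (R (-x)) + C := by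
  obtain ⟨C0, h0⟩ := e.sieg (g + κ) g (g + κ + κ) (by omega) (by omega)
  obtain ⟨C1, h1⟩ := xi_additive h κ g κ (by omega)
  obtain ⟨C3, h3⟩ := hh_class_inv h κ κ (by omega)
  obtain ⟨C4, h4⟩ := hh_add_nsmul_o h κ g (by omega) (κ - g)
  have hk : (0 : ℝ) < (κ : ℝ) + 1 - g := by
    have : (g : ℝ) ≤ κ := by exact_mod_cast (by omega : g ≤ κ)
    linarith
  refine ⟨C0 + ((κ : ℝ) + 1 - g) * C1 + C3 + C4, fun x => ?_⟩
  obtain ⟨E, hEd, hEc, hE⟩ := h0 (R (-x)) (hRd _)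
  have hEd' : deg E = κ := by omega
  have hEc' : cl E = x := by rw [hEc, hRc, neg_neg]
  have a1 := h1 (R (-x)) E (hRd _) hEd'
  have e0 : (((g + κ : ℕ) : ℝ) - g + 1 - g) = (κ : ℝ) + 1 - g := by push_cast; ring
  rw [e0] at hE
  have hC1 : 0 ≤ C1 := le_trans (abs_nonneg _) a1
  have hC3' := h3 E (R x + (κ - g) • o) hEd'
    (by rw [map_add, map_nsmul, hRd, h.deg_o]; simp; omega)
    (by rw [map_add, map_nsmul, hRc, h.cl_o, hEc']; simp)
  have hC4' := h4 (R x) (hRd x)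
  have hC3 : 0 ≤ C3 := le_trans (abs_nonneg _) hC3'
  have hC4 : 0 ≤ C4 := le_trans (abs_nonneg _) hC4'
  -- unfold the theta heights
  have t1 : hh deg H g κ (R (-x)) = H (g + κ) (R (-x))
      - ((κ : ℝ) + 1 - g) * (H (g + κ + 1) (R (-x)) - H (g + κ) (R (-x))) := by
    unfold hh; rw [hRd]; ring
  have t2 : hh deg H g κ E = H (κ + κ) E
      - ((κ : ℝ) + 1 - g) * (H (κ + κ + 1) E - H (κ + κ) E) := by
    unfold hh; rw [hEd']; ring
  rw [abs_le] at a1 hC3' hC4'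
  have m1 : ((κ : ℝ) + 1 - g) * (H (κ + κ + 1) E - H (κ + κ) E) ≤
      ((κ : ℝ) + 1 - g) * ((H (g + κ + κ + 1) (R (-x) + E) - H (g + κ + κ) (R (-x) + E))
        - (H (g + κ + 1) (R (-x)) - H (g + κ) (R (-x))) + C1) :=
    mul_le_mul_of_nonneg_left (by linarith [a1.1]) hk.le
  have key1 : ((κ : ℝ) + 1 - g) * (H (κ + κ + 1) E - H (κ + κ) E)
      ≤ hh deg H g κ (R (-x)) + (C0 + ((κ : ℝ) + 1 - g) * C1) := by
    rw [t1]; nlinarith [m1, hE]
  refine ⟨E, hEd', hEc', by linarith, ?_⟩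
  have : H (κ + κ) E = hh deg H g κ E
      + ((κ : ℝ) + 1 - g) * (H (κ + κ + 1) E - H (κ + κ) E) := by rw [t2]; ring
  rw [this]
  linarith [hC3'.2, hC4'.2]

/-- positivity of the theta height -/
theorem theta_bddBelow (h : Inputs deg cl o g c c1 H) (e : Extra deg cl g c H) (κ : ℕ)
    (hκ : c + c1 + g + 1 ≤ κ) (R : A → Dv) (hRd : ∀ x, deg (R x) = g) (hRc : ∀ x, cl (R x) = x) :
    ∃ C : ℝ, ∀ x : A, -C ≤ hh deg H g κ (R x) := by
  obtain ⟨C, hC⟩ := key h e κ hκ R hRd hRc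
  obtain ⟨C2, h2⟩ := e.pos (κ + κ)
  have hk : (0 : ℝ) < (κ : ℝ) + 1 - g := by
    have : (g : ℝ) ≤ κ := by exact_mod_cast (by omega : g ≤ κ)
    linarith
  refine ⟨C + ((κ : ℝ) + 1 - g) * C2, fun x => ?_⟩
  obtain ⟨E, hEd, -, hE, -⟩ := hC (-x)
  rw [neg_neg] at hE
  have := h2 E (by omega)
  have m1 : ((κ : ℝ) + 1 - g) * (-C2) ≤ ((κ : ℝ) + 1 - g) * (H (κ + κ + 1) E - H (κ + κ) E) :=
    mul_le_mul_of_nonneg_left (by linarith) hk.le
  linarith

/-- Northcott for the symmetrised theta height -/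
theorem theta_northcott (h : Inputs deg cl o g c c1 H) (e : Extra deg cl g c H) (κ : ℕ)
    (hκ : c + c1 + g + 1 ≤ κ) (R : A → Dv) (hRd : ∀ x, deg (R x) = g) (hRc : ∀ x, cl (R x) = x)
    (T : ℝ) : {x : A | hh deg H g κ (R x) + hh deg H g κ (R (-x)) ≤ T}.Finite := by
  obtain ⟨C, hC⟩ := key h e κ hκ R hRd hRc
  have hfin := e.north (κ + κ) κ (T + C) (by omega)
  refine (hfin.image cl).subset ?_
  intro x hx
  obtain ⟨E, hEd, hEc, -, hE⟩ := hC x
  exact ⟨E, ⟨hEd, by have : _ ≤ T := hx; linarith⟩, hEc⟩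

/-- **abstract top-level statement** -/
theorem fg_of_frame (h : Inputs deg cl o g c c1 H) (e : Extra deg cl g c H)
    (R : A → Dv) (hRd : ∀ x, deg (R x) = g) (hRc : ∀ x, cl (R x) = x)
    (W : (nsmulAddMonoidHom (α := A) 3).range.FiniteIndex) : AddGroup.FG A := by
  set κ := c + c1 + g + 1 with hκ
  obtain ⟨C0, h0⟩ := theta_bddBelow h e κ le_rfl R hRd hRc
  obtain ⟨C1, h1⟩ := parallelogram h κ le_rfl R hRd hRc
  let hgt : A → ℝ := fun x => hh deg H g κ (R x) + hh deg H g κ (R (-x)) + 2 * C0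
  have N : Northcott hgt := ⟨fun b => by
    have := theta_northcott h e κ le_rfl R hRd hRc (b - 2 * C0)
    refine this.subset fun x hx => ?_
    have hx' : hgt x ≤ b := hx
    show _ ≤ b - 2 * C0
    simp only [hgt] at hx'
    linarith⟩
  refine fg_of_parallelogram3 (h := hgt) (C := C1 + 4 * |C0|) W (fun x => ?_) (fun x y => ?_)
  · have a := h0 x
    have b := h0 (-x)
    simp only [hgt]; linarith
  · have a := h1 x y
    simp only [hgt]
    rw [abs_le] at a ⊢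
    have b := abs_nonneg C0
    have b1 := le_abs_self C0
    have b2 := neg_abs_le C0
    constructor <;> linarith [a.1, a.2]

end PNa
end Fermat.Agent.S17Lib
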